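import Mathlib

/-!
# The moments of a function holomorphic off a lemniscate

If `f` is holomorphic where `|p| > ρ₀` and equals `∑ a n / z ^ (n + 1)` near infinity then
`q ↦ ∑ q n * a n` is bounded by the maximum of `|q|` on `|p| ≤ ρ` for every `ρ > ρ₀`. The proof
replaces contours by a smooth cut-off and Green's formula in logarithmic coordinates.
-/

set_option autoImplicit false

noncomputable section

namespace FA.PolyaRationality

open Complex MeasureTheory Filter Polynomial Set
open scoped Real Topology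

/-- The pairing of a polynomial with a sequence. -/
def moment (a : ℕ → ℂ) (q : ℂ[X]) : ℂ := q.sum fun n c => c * a n

theorem moment_add (a : ℕ → ℂ) (q r : ℂ[X]) : moment a (q + r) = moment a q + moment a r := by
  unfold moment
  exact sum_add_index _ _ _ (fun n => zero_mul _) fun n x y => add_mul _ _ _

theorem moment_monomial (a : ℕ → ℂ) (n : ℕ) (c : ℂ) : moment a (monomial n c) = c * a n := by
  unfold moment
  exact sum_monomial_index _ _ (zero_mul _)

theorem moment_eq_sum (a : ℕ → ℂ) {q : ℂ[X]} {k : ℕ} (h : q.natDegree < k) :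
    moment a q = ∑ n ∈ Finset.range k, q.coeff n * a n :=
  sum_over_range' _ (fun _ => zero_mul _) k h

theorem exists_radius (p : ℂ[X]) (hd : 0 < p.natDegree) (ρ : ℝ) :
    ∃ R : ℝ, ∀ z : ℂ, R < ‖z‖ → ρ < ‖p.eval z‖ := by
  have h := p.tendsto_norm_atTop (natDegree_pos_iff_degree_pos.1 hd)
    (tendsto_norm_cobounded_atTop (E := ℂ))
  obtain ⟨R, -, hR⟩ := (hasBasis_cobounded_norm (E := ℂ)).eventually_iff.1
    (h.eventually_gt_atTop ρ)
  exact ⟨R, fun z hz => hR hz.le⟩

/-- The orthogonality of the exponentials. -/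
theorem integral_cexp_int (X : ℝ) (j : ℤ) :
    ∫ y in (0 : ℝ)..2 * π, cexp ((j : ℂ) * (X + y * I)) = if j = 0 then 2 * π else 0 := by
  split_ifs with hj
  · subst hj
    simp
  · have e : ∀ y : ℝ, cexp ((j : ℂ) * (X + y * I)) =
        cexp ((j : ℂ) * X) * cexp ((j : ℂ) * I * y) := fun y => by
      rw [← Complex.exp_add]; ring_nf
    simp only [e, intervalIntegral.integral_const_mul]
    rw [integral_exp_mul_complex (mul_ne_zero (Int.cast_ne_zero.2 hj) I_ne_zero),
      show (j : ℂ) * I * ((2 * π : ℝ) : ℂ) = (j : ℂ) * (2 * π * I) by push_cast; ring,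
      exp_int_mul_two_pi_mul_I]
    simp

/-- The moments as integrals over a large circle. -/
theorem integral_circle_eq_moment {a : ℕ → ℂ} {f : ℂ → ℂ} {R₀ X : ℝ}
    (hser : ∀ z : ℂ, R₀ < ‖z‖ → HasSum (fun n => a n / z ^ (n + 1)) (f z))
    (hX : R₀ < Real.exp X) (q : ℂ[X]) :
    Continuous (fun y : ℝ => f (cexp (X + y * I))) ∧
    ∫ y in (0 : ℝ)..2 * π,
      f (cexp (X + y * I)) * q.eval (cexp (X + y * I)) * cexp (X + y * I) =
        2 * π * moment a q := by
  obtain ⟨r, hr1, hr2⟩ := exists_between (max_lt hX (Real.exp_pos X))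
  rw [max_lt_iff] at hr1
  -- absolute convergence on the circle
  have hterm := (hser r (by rw [norm_real, Real.norm_of_nonneg hr1.2.le]; exact hr1.1)).summable
  obtain ⟨C, hC⟩ := hterm.tendsto_atTop_zero.norm.bddAbove_range
  have hsum : Summable fun n => ‖a n‖ / Real.exp X ^ (n + 1) := by
    refine Summable.of_nonneg_of_le (fun n => by positivity) (fun n => ?_)
      ((summable_geometric_of_lt_one (div_nonneg hr1.2.le (Real.exp_pos X).le)
        ((div_lt_one (Real.exp_pos X)).2 hr2)).mul_left (C * (r / Real.exp X)))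
    have h := hC (Set.mem_range_self n)
    simp only [norm_div, norm_pow, norm_real, Real.norm_of_nonneg hr1.2.le] at h
    rw [div_le_iff₀ (pow_pos hr1.2 _)] at h
    calc ‖a n‖ / Real.exp X ^ (n + 1) ≤ C * r ^ (n + 1) / Real.exp X ^ (n + 1) := by
          gcongr
      _ = _ := by
          rw [mul_div_assoc, ← div_pow, pow_succ']
          ring
  have hnorm : ∀ y : ℝ, ‖cexp (X + y * I)‖ = Real.exp X := fun y => by
    rw [norm_exp]; simp
  have hterms : ∀ y : ℝ, HasSum (fun n => a n / cexp (X + y * I) ^ (n + 1))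
      (f (cexp (X + y * I))) := fun y => hser _ (by rw [hnorm]; exact hX)
  have hcont : Continuous (fun y : ℝ => f (cexp (X + y * I))) := by
    rw [show (fun y : ℝ => f (cexp (X + y * I))) =
      fun y : ℝ => ∑' n, a n / cexp (X + y * I) ^ (n + 1) from
        funext fun y => (hterms y).tsum_eq.symm]
    exact continuous_tsum (fun n => continuous_const.div (by fun_prop)
      fun y => pow_ne_zero _ (Complex.exp_ne_zero _)) hsum fun n y => by
        rw [norm_div, norm_pow, hnorm]
  refine ⟨hcont, ?_⟩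
  induction q using Polynomial.induction_on' with
  | add q r hq hr =>
    rw [moment_add, mul_add, ← hq, ← hr, ← intervalIntegral.integral_add]
    · exact intervalIntegral.integral_congr fun y _ => by simp only [eval_add]; ring
    all_goals exact Continuous.intervalIntegrable ((hcont.mul (by fun_prop)).mul (by fun_prop)) _ _
  | monomial m c =>
    rw [moment_monomial]
    have e : ∀ (n : ℕ) (y : ℝ), a n / cexp (X + y * I) ^ (n + 1) *
        (c * cexp (X + y * I) ^ m) * cexp (X + y * I) =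
          a n * c * cexp ((((m : ℤ) - n : ℤ) : ℂ) * (X + y * I)) := by
      intro n y
      push_cast
      rw [sub_mul, Complex.exp_sub, Complex.exp_nat_mul, Complex.exp_nat_mul, pow_succ]
      field_simp [Complex.exp_ne_zero]
    have hlim : ∀ y : ℝ, HasSum (fun n => a n * c * cexp ((((m : ℤ) - n : ℤ) : ℂ) * (X + y * I)))
        (f (cexp (X + y * I)) * (monomial m c).eval (cexp (X + y * I)) * cexp (X + y * I)) := by
      intro y
      rw [eval_monomial]
      exact (((hterms y).mul_right _).mul_right _).congr_fun fun n => (e n y).symm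
    have h := intervalIntegral.hasSum_integral_of_dominated_convergence
      (μ := volume) (a := 0) (b := 2 * π)
      (F := fun (n : ℕ) (y : ℝ) => a n * c * cexp ((((m : ℤ) - n : ℤ) : ℂ) * (X + y * I)))
      (fun n _ => ‖a n‖ / Real.exp X ^ (n + 1) * (‖c‖ * Real.exp X ^ m * Real.exp X))
      (fun n => (Continuous.aestronglyMeasurable (by fun_prop)))
      (fun n => ae_of_all _ fun y _ => le_of_eq (by
        rw [← e, norm_mul, norm_mul, norm_mul, norm_div, norm_pow, norm_pow, hnorm]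
        ring))
      (ae_of_all _ fun y _ => hsum.mul_right _) intervalIntegrable_const
      (ae_of_all _ fun y _ => hlim y)
    refine h.unique ?_
    simp only [intervalIntegral.integral_const_mul, integral_cexp_int]
    refine (hasSum_ite_eq m (2 * (π : ℂ) * (c * a m))).congr_fun fun n => ?_
    by_cases hn : n = m
    · subst hn
      simp only [sub_self, if_true]
      push_cast
      ring
    · rw [if_neg (by omega), if_neg hn, ofReal_zero, mul_zero]

/-- A smooth cut-off of a lemniscate. -/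
theorem exists_cutoff (p : ℂ[X]) {s t : ℝ} (hs : 0 ≤ s) (hst : s < t) :
    ∃ ψ : ℂ → ℝ, Differentiable ℝ ψ ∧ Continuous (fderiv ℝ ψ) ∧ (∀ z, ψ z ∈ Set.Icc (0 : ℝ) 1) ∧
      (∀ z, ‖p.eval z‖ ≤ s → ψ z = 0) ∧ ∀ z, t ≤ ‖p.eval z‖ → ψ z = 1 := by
  obtain ⟨ψ, hψ⟩ : ∃ ψ : ℂ → ℝ,
      ψ = fun z => Real.smoothTransition ((‖p.eval z‖ ^ 2 - s ^ 2) / (t ^ 2 - s ^ 2)) := ⟨_, rfl⟩
  have hp : ContDiff ℝ 1 fun z : ℂ => p.eval z := by
    simp only [eval_eq_sum_range]
    exact ContDiff.sum fun i _ => (contDiff_const.mul (contDiff_id.pow i))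
  have hcd : ContDiff ℝ 1 ψ := hψ ▸ Real.smoothTransition.contDiff.comp
    (((hp.norm_sq ℝ).sub contDiff_const).div_const _)
  have hts : 0 < t ^ 2 - s ^ 2 := by nlinarith
  refine ⟨ψ, hcd.differentiable one_ne_zero, hcd.continuous_fderiv one_ne_zero, fun z => ?_,
    fun z hz => ?_, fun z hz => ?_⟩
  · rw [hψ]
    exact ⟨Real.smoothTransition.nonneg _, Real.smoothTransition.le_one _⟩
  · rw [hψ]
    refine Real.smoothTransition.zero_of_nonpos (div_nonpos_of_nonpos_of_nonneg ?_ hts.le)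
    nlinarith [norm_nonneg (p.eval z)]
  · rw [hψ]
    refine Real.smoothTransition.one_of_one_le ((one_le_div hts).2 ?_)
    nlinarith [norm_nonneg (p.eval z)]

/-- **The bound of the moments.** -/
theorem exists_moment_bound {p : ℂ[X]} (hd : 0 < p.natDegree) {a : ℕ → ℂ} {f : ℂ → ℂ}
    {ρ₀ ρ R₀ : ℝ} (hρ₀ : 0 ≤ ρ₀) (hρ : ρ₀ < ρ)
    (hf : ∀ z, ρ₀ < ‖p.eval z‖ → DifferentiableAt ℂ f z)
    (hser : ∀ z : ℂ, R₀ < ‖z‖ → HasSum (fun n => a n / z ^ (n + 1)) (f z)) :
    ∃ C : ℝ, 0 ≤ C ∧ ∀ (q : ℂ[X]) (W : ℝ), (∀ z, ‖p.eval z‖ ≤ ρ → ‖q.eval z‖ ≤ W) →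
      ‖moment a q‖ ≤ C * W := by
  obtain ⟨s, hs1, hs2⟩ := exists_between hρ
  obtain ⟨ψ, hψd, hψc, hψb, hψ0, hψ1⟩ := exists_cutoff p (hρ₀.trans hs1.le) hs2
  obtain ⟨R₁, hR₁⟩ := exists_radius p hd ρ
  obtain ⟨X, hX⟩ : ∃ X : ℝ, X = Real.log (max (max R₀ R₁) 1 + 1) := ⟨_, rfl⟩
  have hXexp : Real.exp X = max (max R₀ R₁) 1 + 1 := by
    rw [hX, Real.exp_log (by linarith [le_max_right (max R₀ R₁) 1])]
  have hXR₀ : R₀ < Real.exp X := by
    linarith [le_max_left (max R₀ R₁) 1, le_max_left R₀ R₁, hXexp]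
  have hXR₁ : R₁ < Real.exp X := by
    linarith [le_max_left (max R₀ R₁) 1, le_max_right R₀ R₁, hXexp]
  obtain ⟨A, hA⟩ : ∃ A : Set ℂ, A = {z | s ≤ ‖p.eval z‖ ∧ ‖p.eval z‖ ≤ ρ} := ⟨_, rfl⟩
  have hAc : IsCompact A := by
    refine Metric.isCompact_of_isClosed_isBounded ?_ ?_
    · exact hA ▸ (isClosed_le continuous_const p.continuous.norm).inter
        (isClosed_le p.continuous.norm continuous_const)
    · refine (Metric.isBounded_closedBall (x := (0 : ℂ)) (r := R₁)).subset fun z hz => ?_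
      rw [hA] at hz
      rw [mem_closedBall_zero_iff]
      exact not_lt.1 fun h => absurd hz.2 (not_le.2 (hR₁ z h))
  have hfc : ∀ z, s ≤ ‖p.eval z‖ → DifferentiableAt ℂ f z := fun z hz => hf z (hs1.trans_le hz)
  obtain ⟨Cf, hCf⟩ := hAc.exists_bound_of_continuousOn (f := f) fun z hz =>
    (hfc z (hA ▸ hz).1).continuousAt.continuousWithinAt
  obtain ⟨Cψ, hCψ⟩ := hAc.exists_bound_of_continuousOn (f := fderiv ℝ ψ) hψc.continuousOn
  obtain ⟨D, hD⟩ : ∃ D : ℝ, D = 2 * max Cψ 0 * max Cf 0 := ⟨_, rfl⟩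
  have hD0 : 0 ≤ D := hD ▸ by positivity
  refine ⟨D * Real.exp (2 * X), by positivity, fun q W hW => ?_⟩
  obtain ⟨z₀, hz₀⟩ := IsAlgClosed.exists_root p (natDegree_pos_iff_degree_pos.1 hd).ne'
  have hW0 : 0 ≤ W := (norm_nonneg _).trans (hW z₀ (by
    rw [show p.eval z₀ = 0 from hz₀, norm_zero]; linarith))
  -- the cut off integrand
  obtain ⟨H, hH⟩ : ∃ H : ℂ → ℂ, H = fun ζ => f (cexp ζ) * q.eval (cexp ζ) * cexp ζ := ⟨_, rfl⟩
  obtain ⟨F, hF⟩ : ∃ F : ℂ → ℂ, F = fun ζ => (ψ (cexp ζ) : ℂ) * H ζ := ⟨_, rfl⟩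
  have hnhds : ∀ z, ‖p.eval z‖ < s → (fun w => (ψ w : ℂ)) =ᶠ[𝓝 z] 0 := fun z hz => by
    filter_upwards [(isOpen_lt p.continuous.norm continuous_const).mem_nhds hz] with w hw
    simp [hψ0 w (le_of_lt hw)]
  have hzero : ∀ ζ, ‖p.eval (cexp ζ)‖ < s → F =ᶠ[𝓝 ζ] 0 := fun ζ hζ => by
    filter_upwards [Complex.continuous_exp.continuousAt.tendsto.eventually (hnhds _ hζ)] with w hw
    simp only [Pi.zero_apply] at hw ⊢
    simp [hF, hw]
  have hHd : ∀ ζ, s ≤ ‖p.eval (cexp ζ)‖ → DifferentiableAt ℂ H ζ := fun ζ hζ => by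
    rw [hH]
    exact (((hfc _ hζ).comp ζ differentiable_exp.differentiableAt).mul
      ((q.differentiableAt).comp ζ differentiable_exp.differentiableAt)).mul
        differentiable_exp.differentiableAt
  have hexp : ∀ ζ : ℂ, HasFDerivAt cexp
      ((ContinuousLinearMap.toSpanSingleton ℂ (cexp ζ)).restrictScalars ℝ) ζ := fun ζ =>
    ((Complex.hasDerivAt_exp ζ).hasFDerivAt).restrictScalars ℝ
  have hΨd : ∀ ζ : ℂ, HasFDerivAt (fun w => ((ψ (cexp w) : ℝ) : ℂ))
      (ofRealCLM.comp ((fderiv ℝ ψ (cexp ζ)).comp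
        ((ContinuousLinearMap.toSpanSingleton ℂ (cexp ζ)).restrictScalars ℝ))) ζ := fun ζ =>
    (ofRealCLM.hasFDerivAt.comp ζ ((hψd (cexp ζ)).hasFDerivAt.comp ζ (hexp ζ)))
  have hFd : ∀ ζ, DifferentiableAt ℝ F ζ := fun ζ => by
    by_cases hζ : ‖p.eval (cexp ζ)‖ < s
    · exact (differentiableAt_const (0 : ℂ)).congr_of_eventuallyEq (hzero ζ hζ)
    · rw [hF]
      exact (hΨd ζ).differentiableAt.mul ((hHd ζ (not_lt.1 hζ)).restrictScalars ℝ)
  obtain ⟨g, hg⟩ : ∃ g : ℂ → ℂ, g = fun ζ => I • fderiv ℝ F ζ 1 - fderiv ℝ F ζ I := ⟨_, rfl⟩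
  have hgb : ∀ x y : ℝ, ‖g (x + y * I)‖ ≤ D * W * Real.exp x ^ 2 := by
    intro x y
    obtain ⟨ζ, hζdef⟩ : ∃ ζ : ℂ, ζ = x + y * I := ⟨_, rfl⟩
    rw [← hζdef]
    have hnorm : ‖cexp ζ‖ = Real.exp x := by rw [norm_exp, hζdef]; simp
    by_cases hζ : ‖p.eval (cexp ζ)‖ < s
    · rw [hg]
      simp only [(hzero ζ hζ).fderiv_eq, fderiv_zero, Pi.zero_apply, _root_.zero_apply]
      simp only [smul_zero, sub_zero, norm_zero]
      positivity
    rw [not_lt] at hζ
    have hHℝ : HasFDerivAt H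
        ((ContinuousLinearMap.toSpanSingleton ℂ (deriv H ζ)).restrictScalars ℝ) ζ :=
      ((hHd ζ hζ).hasDerivAt.hasFDerivAt).restrictScalars ℝ
    have hFder := (hΨd ζ).fun_mul hHℝ
    have key : g ζ = H ζ * (I * ((fderiv ℝ ψ (cexp ζ) (cexp ζ) : ℝ) : ℂ) -
        ((fderiv ℝ ψ (cexp ζ) (I * cexp ζ) : ℝ) : ℂ)) := by
      rw [hg, hF]
      simp only [hFder.fderiv, _root_.add_apply, _root_.smul_apply,
        ContinuousLinearMap.coe_restrictScalars', ContinuousLinearMap.toSpanSingleton_apply,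
        ContinuousLinearMap.comp_apply, ofRealCLM_apply, smul_eq_mul, one_mul]
      ring
    by_cases hout : ρ < ‖p.eval (cexp ζ)‖
    · have hev : ψ =ᶠ[𝓝 (cexp ζ)] fun _ => 1 := by
        filter_upwards [(isOpen_lt continuous_const p.continuous.norm).mem_nhds hout] with w hw
        exact hψ1 w (le_of_lt hw)
      rw [key, hev.fderiv_eq, fderiv_fun_const]
      simp only [Pi.zero_apply, _root_.zero_apply, ofReal_zero, mul_zero, sub_zero,
        norm_zero]
      positivity
    rw [not_lt] at hout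
    have hmem : cexp ζ ∈ A := hA ▸ ⟨hζ, hout⟩
    have hψ' : ∀ v : ℂ, ‖((fderiv ℝ ψ (cexp ζ) v : ℝ) : ℂ)‖ ≤ max Cψ 0 * ‖v‖ := fun v => by
      rw [Complex.norm_real]
      exact ((fderiv ℝ ψ (cexp ζ)).le_opNorm v).trans (mul_le_mul_of_nonneg_right
        ((hCψ _ hmem).trans (le_max_left _ _)) (norm_nonneg v))
    rw [key, norm_mul, hH]
    simp only [norm_mul, hnorm]
    calc _ ≤ max Cf 0 * W * Real.exp x * (max Cψ 0 * Real.exp x + max Cψ 0 * Real.exp x) := by
          gcongr
          · exact (hCf _ hmem).trans (le_max_left _ _)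
          · exact hW _ hout
          · refine (norm_sub_le _ _).trans (add_le_add ?_ ?_)
            · rw [norm_mul, norm_I, one_mul]
              exact (hψ' _).trans_eq (by rw [hnorm])
            · exact (hψ' _).trans_eq (by rw [norm_mul, norm_I, one_mul, hnorm])
      _ = D * W * Real.exp x ^ 2 := by rw [hD]; ring
  -- the function near the origin
  obtain ⟨B₀, hB₀⟩ : ∃ B₀ : ℝ, ∀ z : ℂ, ‖z‖ ≤ 1 → ‖(ψ z : ℂ) * f z * q.eval z‖ ≤ B₀ := by
    have hc : Continuous fun z => (ψ z : ℂ) * f z * q.eval z := by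
      refine Continuous.mul (continuous_iff_continuousAt.2 fun z => ?_) q.continuous
      by_cases hz : ‖p.eval z‖ < s
      · refine (continuousAt_const (y := (0 : ℂ))).congr ?_
        filter_upwards [hnhds z hz] with w hw
        simp only [Pi.zero_apply] at hw ⊢
        rw [hw, zero_mul]
      · exact (continuous_ofReal.continuousAt.comp (hψd z).continuousAt).mul
          (hfc z (not_lt.1 hz)).continuousAt
    obtain ⟨B₀, hB₀⟩ :=
      (isCompact_closedBall (0 : ℂ) 1).exists_bound_of_continuousOn hc.continuousOn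
    exact ⟨B₀, fun z hz => hB₀ z (mem_closedBall_zero_iff.2 hz)⟩
  have hper : ∀ x : ℝ, F (x + (2 * π : ℝ) * I) = F (x + (0 : ℝ) * I) := fun x => by
    have e : cexp (x + (2 * π : ℝ) * I) = cexp (x + (0 : ℝ) * I) := by
      rw [Complex.exp_add, Complex.exp_add]
      push_cast
      rw [exp_two_pi_mul_I]
      simp
    simp only [hF, hH, e]
  obtain ⟨hfcirc, hmom⟩ := integral_circle_eq_moment hser hXR₀ q
  have houter : ∀ y : ℝ, F (X + y * I) =
      f (cexp (X + y * I)) * q.eval (cexp (X + y * I)) * cexp (X + y * I) := fun y => by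
    have h1 : ψ (cexp (X + y * I)) = 1 :=
      hψ1 _ (hR₁ _ (by rw [norm_exp]; simpa using hXR₁)).le
    simp [hF, hH, h1]
  have hbound : ∀ L : ℝ, L ≤ 0 → L ≤ X →
      2 * π * ‖moment a q‖ ≤ 2 * π * (B₀ * Real.exp L) + 2 * π * (D * W * Real.exp (2 * X)) := by
    intro L hL0 hLX
    have hrect := integral_boundary_rect_of_hasFDerivAt_real_off_countable F (fderiv ℝ F)
      (L : ℂ) ((X : ℂ) + (2 * π : ℝ) * I) ∅ countable_empty
      (fun ζ _ => (hFd ζ).continuousAt.continuousWithinAt) (fun ζ _ => (hFd ζ).hasFDerivAt) ?_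
    swap
    · refine (IntegrableOn.congr_fun (f := g) ?_ (fun ζ _ => by rw [hg]) ?_)
      · refine IntegrableOn.of_bound ?_ ?_ (D * W * Real.exp X ^ 2) ?_
        · exact (isCompact_uIcc.reProdIm isCompact_uIcc).measure_lt_top
        · rw [hg]
          exact (((measurable_fderiv_apply_const ℝ F 1).const_smul I).sub
            (measurable_fderiv_apply_const ℝ F I)).aestronglyMeasurable
        · refine (ae_restrict_mem ((isCompact_uIcc.reProdIm isCompact_uIcc).measurableSet)).mono
            fun ζ hζ => ?_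
          have h := hgb ζ.re ζ.im
          rw [re_add_im] at h
          refine h.trans ?_
          have hre : ζ.re ≤ X := by
            have h' := hζ.1
            rw [Set.mem_preimage, show ((X : ℂ) + (2 * π : ℝ) * I).re = X by simp, ofReal_re,
              Set.uIcc_of_le hLX] at h'
            exact h'.2
          gcongr
      · exact (isCompact_uIcc.reProdIm isCompact_uIcc).measurableSet
    simp only [add_re, mul_re, ofReal_re, I_re, mul_zero, ofReal_im, I_im, mul_one, sub_self,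
      add_zero, add_im, mul_im, zero_add, smul_eq_mul] at hrect
    rw [intervalIntegral.integral_congr (g := fun x : ℝ => F (x + (0 : ℝ) * I))
      (f := fun x : ℝ => F (x + (2 * π : ℝ) * I)) fun x _ => hper x] at hrect
    simp only [sub_self, zero_add, houter, hmom] at hrect
    have hI : ‖∫ y in (0 : ℝ)..2 * π, F (L + y * I)‖ ≤ 2 * π * (B₀ * Real.exp L) := by
      refine (intervalIntegral.norm_integral_le_of_norm_le_const
        (C := B₀ * Real.exp L) fun y _ => ?_).trans (le_of_eq ?_)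
      · have hn : ‖cexp (L + y * I)‖ = Real.exp L := by rw [norm_exp]; simp
        simp only [hF, hH]
        rw [← mul_assoc, ← mul_assoc, norm_mul _ (cexp _), hn]
        exact mul_le_mul_of_nonneg_right (hB₀ _ (by rw [hn]; exact Real.exp_le_one_iff.2 hL0))
          (Real.exp_pos L).le
      · rw [sub_zero, abs_of_pos Real.two_pi_pos]
        ring
    obtain ⟨J, hJ⟩ : ∃ J : ℂ, J = ∫ x : ℝ in L..X, ∫ y : ℝ in (0 : ℝ)..2 * π,
        I * fderiv ℝ F (x + y * I) 1 - fderiv ℝ F (x + y * I) I := ⟨_, rfl⟩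
    have hJb : ‖J‖ ≤ 2 * π * (D * W * Real.exp (2 * X)) := by
      rw [hJ]
      refine (intervalIntegral.norm_integral_le_of_norm_le hLX
        (g := fun x => D * W * Real.exp x ^ 2 * (2 * π)) (ae_of_all _ fun x _ => ?_)
        (Continuous.intervalIntegrable (by fun_prop) _ _)).trans ?_
      · refine (intervalIntegral.norm_integral_le_of_norm_le_const
          (C := D * W * Real.exp x ^ 2) fun y _ => ?_).trans (le_of_eq ?_)
        · have h := hgb x y
          simpa [hg] using h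
        · rw [sub_zero, abs_of_pos Real.two_pi_pos]
      · have he : ∀ x : ℝ, D * W * Real.exp x ^ 2 * (2 * π) =
            D * W * (2 * π) * Real.exp (2 * x) := fun x => by
          rw [sq, ← Real.exp_add, two_mul]; ring_nf
        simp only [he, intervalIntegral.integral_const_mul,
          intervalIntegral.integral_comp_mul_left Real.exp two_ne_zero, integral_exp, smul_eq_mul]
        have hpos := Real.exp_pos (2 * L)
        have hp2 : 0 ≤ D * W * (2 * π) := by positivity
        nlinarith [Real.exp_pos (2 * X)]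
    rw [← hJ] at hrect
    have hsolve : I * (2 * π * moment a q) = I * (∫ y in (0 : ℝ)..2 * π, F (L + y * I)) + J := by
      linear_combination hrect
    have hn := congrArg norm hsolve
    rw [norm_mul, norm_I, one_mul, norm_mul] at hn
    rw [show ‖(2 * π : ℂ)‖ = 2 * π by simp [abs_of_pos Real.pi_pos]] at hn
    rw [hn]
    refine (norm_add_le _ _).trans (add_le_add ?_ hJb)
    rw [norm_mul, norm_I, one_mul]
    exact hI
  -- let the inner circle shrink
  have hlim : Tendsto (fun L : ℝ => B₀ * Real.exp L + D * W * Real.exp (2 * X)) atBot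
      (𝓝 (D * Real.exp (2 * X) * W)) := by
    have h := (Real.tendsto_exp_atBot.const_mul B₀).add_const (D * W * Real.exp (2 * X))
    rw [mul_zero, zero_add] at h
    convert h using 2
    ring
  refine ge_of_tendsto hlim (eventually_atBot.2 ⟨min 0 X, fun L hL => ?_⟩)
  have h := hbound L (hL.trans (min_le_left _ _)) (hL.trans (min_le_right _ _))
  refine le_of_mul_le_mul_left (h.trans (le_of_eq ?_)) Real.two_pi_pos
  ring

end FA.PolyaRationality
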