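import Fermat.Agent.DworkRationality.Hankel
import Fermat.Agent.PolyaRationality.Functional

/-!
# Pólya's rationality theorem

An integral expansion at infinity of a function holomorphic off a lemniscate `|p| ≤ ρ < 1` of a
monic polynomial is rational: its Hankel determinants tend to zero.
-/

set_option autoImplicit false

noncomputable section

namespace FA.PolyaRationality

open Polynomial Filter
open FA.DworkRationality (hankel exists_recurrence exists_intPolynomial)
open scoped Topology Nat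

theorem moment_sum {ι : Type*} (a : ℕ → ℂ) (s : Finset ι) (g : ι → ℂ[X]) :
    moment a (∑ i ∈ s, g i) = ∑ i ∈ s, moment a (g i) :=
  map_sum (AddMonoidHom.mk' (moment a) (moment_add a)) g s

/-- Hankel determinants in a triangular basis. -/
theorem det_hankel_eq_det_moment (a : ℕ → ℂ) {k : ℕ} (e : ℕ → ℂ[X])
    (hd : ∀ j, (e j).natDegree = j) (hm : ∀ j, (e j).Monic) :
    (hankel a k).det = (Matrix.of fun i j : Fin k => moment a (e i * e j)).det := by
  obtain ⟨T, hT⟩ : ∃ T : Matrix (Fin k) (Fin k) ℂ,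
      T = Matrix.of fun l j : Fin k => (e j).coeff l := ⟨_, rfl⟩
  have htri : T.BlockTriangular id := fun l j h => by
    rw [hT]
    exact coeff_eq_zero_of_natDegree_lt ((hd j).trans_lt h)
  have hdet : T.det = 1 := by
    rw [Matrix.det_of_isUpperTriangular htri]
    refine Finset.prod_eq_one fun j _ => ?_
    rw [hT, Matrix.of_apply]
    have h := (hm j).coeff_natDegree
    rwa [hd] at h
  have hrep : ∀ j : Fin k, e j = ∑ l : Fin k, monomial (l : ℕ) ((e j).coeff l) := fun j => by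
    rw [Fin.sum_univ_eq_sum_range (fun l => monomial l ((e j).coeff l)) k]
    exact (e j).as_sum_range' k ((hd j).trans_lt j.isLt)
  have hmul : T.transpose * hankel a k * T =
      Matrix.of fun i j : Fin k => moment a (e i * e j) := by
    ext i j
    rw [Matrix.of_apply]
    conv_rhs => rw [hrep i, hrep j, Finset.sum_mul_sum, moment_sum]
    simp only [moment_sum, monomial_mul_monomial, moment_monomial]
    rw [Finset.sum_comm]
    simp only [Matrix.mul_apply, Matrix.transpose_apply, hT, Matrix.of_apply, hankel,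
      Finset.sum_mul]
    exact Finset.sum_congr rfl fun l' _ => Finset.sum_congr rfl fun l _ => by ring
  rw [← hmul, Matrix.det_mul, Matrix.det_mul, Matrix.det_transpose, hdet, one_mul, mul_one]

/-- The determinants tend to zero. -/
theorem eventually_norm_det_hankel_lt_one {p : ℂ[X]} (hp : p.Monic) (hd : 0 < p.natDegree)
    {a : ℕ → ℂ} {ρ C : ℝ} (hρ0 : 0 < ρ) (hρ1 : ρ < 1) (hC : 0 ≤ C)
    (hb : ∀ (q : ℂ[X]) (W : ℝ), (∀ z, ‖p.eval z‖ ≤ ρ → ‖q.eval z‖ ≤ W) →
      ‖moment a q‖ ≤ C * W) :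
    ∀ᶠ k in atTop, ‖(hankel a k).det‖ < 1 := by
  obtain ⟨d, hdd⟩ : ∃ d, d = p.natDegree := ⟨_, rfl⟩
  obtain ⟨r, hr⟩ : ∃ r : ℝ, r = ρ ^ ((d : ℝ)⁻¹) := ⟨_, rfl⟩
  have hrd : r ^ d = ρ := by
    rw [hr, Real.rpow_inv_natCast_pow hρ0.le (by omega)]
  have hr0 : 0 < r := hr ▸ Real.rpow_pos_of_pos hρ0 _
  have hr1 : r < 1 := hr ▸ Real.rpow_lt_one hρ0.le hρ1 (inv_pos.2 (by exact_mod_cast hdd ▸ hd))
  obtain ⟨R₁, hR₁⟩ := exists_radius p hd ρ
  obtain ⟨B, hB⟩ : ∃ B : ℝ, B = (max R₁ 1 / r) ^ d := ⟨_, rfl⟩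
  have hB0 : 0 < B := hB ▸ pow_pos (div_pos (lt_max_of_lt_right one_pos) hr0) _
  obtain ⟨e, he⟩ : ∃ e : ℕ → ℂ[X], e = fun j => X ^ (j % d) * p ^ (j / d) := ⟨_, rfl⟩
  have hem : ∀ j, (e j).Monic := fun j => he ▸ (monic_X_pow _).mul (hp.pow _)
  have hed : ∀ j, (e j).natDegree = j := fun j => by
    simp only [he]
    rw [(monic_X_pow _).natDegree_mul (hp.pow _), natDegree_X_pow, hp.natDegree_pow, ← hdd,
      Nat.mod_add_div']
  have heb : ∀ j z, ‖p.eval z‖ ≤ ρ → ‖(e j).eval z‖ ≤ B * r ^ j := fun j z hz => by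
    have hzR : ‖z‖ ≤ max R₁ 1 :=
      (not_lt.1 fun h => absurd hz (not_le.2 (hR₁ z h))).trans (le_max_left _ _)
    simp only [he, eval_mul, eval_pow, eval_X, norm_mul, norm_pow]
    calc ‖z‖ ^ (j % d) * ‖p.eval z‖ ^ (j / d) ≤ max R₁ 1 ^ (j % d) * (r ^ d) ^ (j / d) := by
          rw [hrd]
          gcongr
      _ = (max R₁ 1 / r) ^ (j % d) * r ^ j := by
          conv_rhs => rw [← Nat.mod_add_div j d, pow_add, pow_mul, ← mul_assoc]
          rw [Nat.mod_add_div]
          congr 1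
          rw [← mul_pow, div_mul_cancel₀ _ hr0.ne']
      _ ≤ B * r ^ j := by
          rw [hB]
          gcongr
          · rw [one_le_div hr0]
            linarith [le_max_right R₁ 1]
          · exact (Nat.mod_lt _ (by omega)).le
  have hent : ∀ i j, ‖moment a (e i * e j)‖ ≤ C * B * r ^ i * (B * r ^ j) := fun i j => by
    refine (hb _ ((B * r ^ i) * (B * r ^ j)) fun z hz => ?_).trans (le_of_eq (by ring))
    rw [eval_mul, norm_mul]
    exact mul_le_mul (heb i z hz) (heb j z hz) (norm_nonneg _) (by positivity)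
  have hlim : Tendsto (fun k : ℕ => (k : ℝ) * r ^ k * (C * B * B / r)) atTop (𝓝 0) := by
    simpa using (tendsto_self_mul_const_pow_of_lt_one hr0.le hr1).mul_const (C * B * B / r)
  filter_upwards [hlim.eventually_lt_const one_pos, eventually_gt_atTop 0] with k hk hk0
  rw [det_hankel_eq_det_moment a e hed hem, Matrix.det_apply]
  refine lt_of_le_of_lt ((norm_sum_le _ _).trans (Finset.sum_le_card_nsmul _ _
    ((C * B * B) ^ k * (r ^ (k * (k - 1)))) fun σ _ => ?_)) ?_
  · rw [Units.smul_def, zsmul_eq_mul, norm_mul, Complex.norm_intCast, norm_prod]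
    rw [show |((Equiv.Perm.sign σ : ℤ) : ℝ)| = 1 by
      rcases Int.units_eq_one_or (Equiv.Perm.sign σ) with h | h <;> rw [h] <;> norm_num, one_mul]
    refine (Finset.prod_le_prod (fun i _ => norm_nonneg _) fun i _ =>
      hent (σ i : Fin k) i).trans (le_of_eq ?_)
    simp only [Finset.prod_mul_distrib, Finset.prod_const, Finset.card_univ, Fintype.card_fin,
      Finset.prod_pow_eq_pow_sum]
    rw [Equiv.sum_comp σ (fun i : Fin k => (i : ℕ)), Fin.sum_univ_eq_sum_range (fun i => i),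
      ← Finset.sum_range_id_mul_two k, mul_two, pow_add, mul_pow, mul_pow]
    ring
  · rw [Finset.card_univ, Fintype.card_perm, Fintype.card_fin, nsmul_eq_mul]
    have h1 : (k.factorial : ℝ) ≤ (k : ℝ) ^ k := by exact_mod_cast Nat.factorial_le_pow k
    refine lt_of_le_of_lt (mul_le_mul_of_nonneg_right h1 (by positivity)) ?_
    have h2 : r ^ (k * (k - 1)) = (r ^ k / r) ^ k := by
      obtain ⟨m, rfl⟩ := Nat.exists_eq_add_of_le' hk0
      rw [pow_succ r m, mul_div_cancel_right₀ _ hr0.ne', ← pow_mul, Nat.add_sub_cancel, mul_comm]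
    rw [h2, ← mul_pow, ← mul_pow]
    refine pow_lt_one₀ (by positivity) (lt_of_eq_of_lt ?_ hk) hk0.ne'
    ring

/-- **Rationality.** -/
theorem exists_rational_of_lemniscate {p : ℂ[X]} (hp : p.Monic) (hd : 0 < p.natDegree)
    {a : ℕ → ℤ} {f : ℂ → ℂ} {ρ₀ R₀ : ℝ} (hρ₀ : 0 ≤ ρ₀) (hρ1 : ρ₀ < 1)
    (hf : ∀ z, ρ₀ < ‖p.eval z‖ → DifferentiableAt ℂ f z)
    (hser : ∀ z : ℂ, R₀ < ‖z‖ → HasSum (fun n => (a n : ℂ) / z ^ (n + 1)) (f z)) :
    ∃ P Q : ℤ[X], Q.Monic ∧ ∃ R : ℝ, ∀ z : ℂ, R < ‖z‖ → f z * aeval z Q = aeval z P := by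
  by_cases h0 : ∀ n, a n = 0
  · refine ⟨0, 1, monic_one, R₀, fun z hz => ?_⟩
    have h := hser z hz
    simp only [h0, Int.cast_zero, zero_div] at h
    simp [h.unique hasSum_zero]
  push Not at h0
  obtain ⟨v, hv⟩ := h0
  obtain ⟨ρ, hρ, hρlt⟩ := exists_between hρ1
  obtain ⟨Cb, hCb, hb⟩ := exists_moment_bound hd (a := fun n => (a n : ℂ)) hρ₀ hρ hf hser
  obtain ⟨R₁, hR₁⟩ := exists_radius p hd ρ
  have hshift : ∀ (q : ℂ[X]) (W : ℝ), (∀ z, ‖p.eval z‖ ≤ ρ → ‖q.eval z‖ ≤ W) →
      ‖moment (fun n => (a (n + v) : ℂ)) q‖ ≤ Cb * max R₁ 0 ^ v * W := by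
    intro q W hW
    have e : moment (fun n => (a (n + v) : ℂ)) q = moment (fun n => (a n : ℂ)) (q * X ^ v) := by
      clear hW
      induction q using Polynomial.induction_on' with
      | add q r hq hr => rw [add_mul, moment_add, moment_add, hq, hr]
      | monomial m c =>
        rw [X_pow_eq_monomial, monomial_mul_monomial, moment_monomial, moment_monomial, mul_one]
    rw [e, mul_assoc]
    refine hb _ _ fun z hz => ?_
    have hzR : ‖z‖ ≤ max R₁ 0 :=
      (not_lt.1 fun h => absurd hz (not_le.2 (hR₁ z h))).trans (le_max_left _ _)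
    rw [eval_mul, eval_pow, eval_X, norm_mul, norm_pow, mul_comm (max R₁ 0 ^ v)]
    exact mul_le_mul (hW z hz) (pow_le_pow_left₀ (norm_nonneg _) hzR v) (by positivity)
      ((norm_nonneg _).trans (hW z hz))
  obtain ⟨k₀, hk₀⟩ := eventually_atTop.1 (eventually_norm_det_hankel_lt_one hp hd
    (hρ₀.trans_lt hρ) hρlt (by positivity) hshift)
  have hvan : ∀ k, k₀ ≤ k → (hankel (fun n => (a (n + v) : ℚ)) k).det = 0 := fun k hk => by
    obtain ⟨D, hD⟩ : ∃ D, D = (Matrix.of fun i j : Fin k => a ((i : ℕ) + j + v)).det := ⟨_, rfl⟩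
    have h1 : (hankel (fun n => (a (n + v) : ℚ)) k).det = (D : ℚ) := by
      rw [hD, Int.cast_det]; rfl
    have h2 : (hankel (fun n => (a (n + v) : ℂ)) k).det = (D : ℂ) := by
      rw [hD, Int.cast_det]; rfl
    have h3 := hk₀ k hk
    rw [h2, Complex.norm_intCast] at h3
    have h4 : |D| < 1 := by exact_mod_cast h3
    rw [h1, Int.abs_lt_one_iff.1 h4, Int.cast_zero]
  obtain ⟨M, c, hcM, hrec⟩ := exists_recurrence (fun n => (a (n + v) : ℚ))
    (by simpa using hv) hvan
  -- a rational denominator for the series in `1 / z`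
  obtain ⟨B, hB⟩ : ∃ B : ℚ[X],
      B = ∑ j ∈ Finset.range (M + 1), C (c j) * X ^ (M - j) := ⟨_, rfl⟩
  have hBc : ∀ l ≤ M, B.coeff l = c (M - l) := fun l hl => by
    simp only [hB, finsetSum_coeff, coeff_C_mul_X_pow]
    rw [Finset.sum_eq_single (M - l)]
    · rw [if_pos (by omega)]
    · intro j hj hne
      simp only [Finset.mem_range] at hj
      rw [if_neg (by omega)]
    · intro h; simp only [Finset.mem_range] at h; omega
  have hBne : B ≠ 0 := fun h => by
    have := hBc 0 (Nat.zero_le _)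
    rw [h, coeff_zero, Nat.sub_zero, hcM] at this
    exact zero_ne_one this
  have hprod : PowerSeries.map (Int.castRingHom ℚ) (PowerSeries.mk a) * (B : PowerSeries ℚ) =
      ((PowerSeries.trunc (M + v) (PowerSeries.map (Int.castRingHom ℚ) (PowerSeries.mk a) *
        (B : PowerSeries ℚ)) : ℚ[X]) : PowerSeries ℚ) := by
    ext n
    rw [coeff_coe, PowerSeries.coeff_trunc]
    split_ifs with hn
    · rfl
    obtain ⟨i, rfl⟩ := Nat.exists_eq_add_of_le (not_lt.1 hn)
    rw [PowerSeries.coeff_mul, Finset.Nat.sum_antidiagonal_eq_sum_range_succ_mk,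
      Finset.range_eq_Ico, ← Finset.sum_Ico_consecutive _ (Nat.zero_le (v + i)) (by omega),
      Finset.sum_eq_zero fun j hj => ?_, zero_add, Finset.sum_Ico_eq_sum_range,
      show (M + v + i).succ - (v + i) = M + 1 by omega]
    · refine Eq.trans (Finset.sum_congr rfl fun j hj => ?_) (hrec i)
      simp only [Finset.mem_range] at hj
      rw [PowerSeries.coeff_map, PowerSeries.coeff_mk, coeff_coe, hBc _ (by omega),
        show M - (M + v + i - (v + i + j)) = j by omega, eq_intCast, mul_comm,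
        show v + i + j = i + j + v by omega]
    · simp only [Finset.mem_Ico] at hj
      rw [coeff_coe, coeff_eq_zero_of_natDegree_lt, mul_zero]
      rw [hB]
      exact (natDegree_sum_le_of_forall_le _ _
        fun j _ => (natDegree_C_mul_X_pow_le _ _).trans (Nat.sub_le M j)).trans_lt (by omega)
  obtain ⟨P', Q', hQ', hPQ⟩ := exists_intPolynomial hBne hprod
  obtain ⟨N, hN⟩ : ∃ N, N = max Q'.natDegree (P'.natDegree + 1) := ⟨_, rfl⟩
  obtain ⟨Q, hQ⟩ : ∃ Q, Q = reflect N Q' := ⟨_, rfl⟩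
  have hQc : ∀ i ≤ N, Q.coeff i = Q'.coeff (N - i) := fun i hi => by
    rw [hQ, coeff_reflect, revAt_le hi]
  have hQdeg : Q.natDegree ≤ N := natDegree_le_iff_coeff_eq_zero.2 fun i hi => by
    rw [hQ, coeff_reflect, revAt_eq_self_of_lt hi]
    exact coeff_eq_zero_of_natDegree_lt (lt_of_le_of_lt (hN ▸ le_max_left _ _) hi)
  have hQm : Q.Monic := monic_of_natDegree_le_of_coeff_eq_one N hQdeg
    (by rw [hQc N le_rfl, Nat.sub_self, hQ'])
  have hann : ∀ i, ∑ n ∈ Finset.range (N + 1), Q.coeff n * a (i + n) = 0 := fun i => by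
    have h := congrArg (PowerSeries.coeff (N + i)) hPQ
    rw [coeff_coe, coeff_eq_zero_of_natDegree_lt
      (show P'.natDegree < N + i by have := le_max_right Q'.natDegree (P'.natDegree + 1); omega),
      PowerSeries.coeff_mul, Finset.Nat.sum_antidiagonal_eq_sum_range_succ_mk, Finset.range_eq_Ico,
      ← Finset.sum_Ico_consecutive _ (Nat.zero_le i) (by omega), Finset.sum_eq_zero fun j hj => ?_,
      zero_add, Finset.sum_Ico_eq_sum_range, show (N + i).succ - i = N + 1 by omega] at h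
    · refine Eq.trans (Finset.sum_congr rfl fun n hn => ?_) h
      simp only [Finset.mem_range] at hn
      rw [PowerSeries.coeff_mk, coeff_coe, hQc n (by omega),
        show N + i - (i + n) = N - n by omega, mul_comm]
    · simp only [Finset.mem_Ico] at hj
      rw [coeff_coe, coeff_eq_zero_of_natDegree_lt, mul_zero]
      have := le_max_left Q'.natDegree (P'.natDegree + 1)
      omega
  refine ⟨∑ n ∈ Finset.range (N + 1), C (Q.coeff n) *
    ∑ m ∈ Finset.range n, C (a m) * X ^ (n - 1 - m), Q, hQm, max R₀ 0, fun z hz => ?_⟩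
  rw [max_lt_iff] at hz
  have hz0 : z ≠ 0 := norm_pos_iff.1 hz.2
  have htail : ∀ n, HasSum (fun i => (a (i + n) : ℂ) / z ^ (i + 1))
      (f z * z ^ n - ∑ m ∈ Finset.range n, (a m : ℂ) * z ^ (n - 1 - m)) := fun n => by
    have h := (hasSum_nat_add_iff' n).2 ((hser z hz.1).mul_right (z ^ n))
    have hfin : ∀ m ∈ Finset.range n, (a m : ℂ) / z ^ (m + 1) * z ^ n =
        (a m : ℂ) * z ^ (n - 1 - m) := fun m hm => by
      rw [Finset.mem_range] at hm
      conv_lhs => rw [show n = (n - 1 - m) + (m + 1) by omega, pow_add]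
      field_simp
      ring
    rw [Finset.sum_congr rfl hfin] at h
    refine h.congr_fun fun i => ?_
    rw [show i + n + 1 = i + 1 + n by omega, pow_add z (i + 1) n]
    field_simp
  have h := hasSum_sum (s := Finset.range (N + 1)) fun n _ => (htail n).mul_left (Q.coeff n : ℂ)
  have hzero : (fun i => ∑ n ∈ Finset.range (N + 1), (Q.coeff n : ℂ) *
      ((a (i + n) : ℂ) / z ^ (i + 1))) = fun _ => 0 := funext fun i => by
    simp only [mul_div_assoc', ← Finset.sum_div, ← Int.cast_mul, ← Int.cast_sum, hann i]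
    simp
  rw [hzero] at h
  have h' := hasSum_zero.unique h
  simp only [mul_sub, Finset.sum_sub_distrib] at h'
  rw [aeval_eq_sum_range' (Nat.lt_succ_of_le hQdeg) z, Finset.mul_sum, map_sum]
  simp only [map_mul, map_sum, map_pow, aeval_X, eq_intCast, map_intCast, zsmul_eq_mul]
  refine Eq.trans ?_ (sub_eq_zero.1 h'.symm)
  exact Finset.sum_congr rfl fun n _ => by ring

/-- **Pólya's theorem.** -/
theorem exists_rational_of_compact {K : Set ℂ} (hK : IsCompact K) {p : ℂ[X]} (hp : p.Monic)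
    (hd : 0 < p.natDegree) (hsmall : ∀ z ∈ K, ‖p.eval z‖ < 1) {a : ℕ → ℤ} {f : ℂ → ℂ} {R₀ : ℝ}
    (hf : DifferentiableOn ℂ f Kᶜ)
    (hser : ∀ z : ℂ, R₀ < ‖z‖ → HasSum (fun n => (a n : ℂ) / z ^ (n + 1)) (f z)) :
    ∃ P Q : ℤ[X], Q.Monic ∧ ∃ R : ℝ, ∀ z : ℂ, R < ‖z‖ → f z * aeval z Q = aeval z P := by
  obtain ⟨δ, hδ, hδK⟩ : ∃ δ : ℝ, 0 < δ ∧ ∀ z ∈ K, δ ≤ 1 - ‖p.eval z‖ :=
    hK.exists_forall_le' (by fun_prop) fun z hz => sub_pos.2 (hsmall z hz)
  refine exists_rational_of_lemniscate hp hd (le_max_right (1 - δ) 0)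
    (max_lt (by linarith) one_pos) (fun z hz => ?_) hser
  exact hf.differentiableAt (hK.isClosed.isOpen_compl.mem_nhds fun hzK => absurd hz
    (not_lt.2 ((by linarith [hδK z hzK] : ‖p.eval z‖ ≤ 1 - δ).trans (le_max_left _ _))))

end FA.PolyaRationality
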