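import Fermat.Agent.FeketeSzego.Chebyshev
import Fermat.Agent.PolyaRationality.Main

/-!
# Segments, discs and the exactness of their constants

The expansion of `1 / √(z ^ 2 - 4)` at infinity is integral and irrational, and so is the lacunary
series `∑ z ^ (-2 ^ j)`: segments of length four and discs of radius one are not small.
-/

set_option autoImplicit false

noncomputable section

namespace FA.PolyaRationality

open Polynomial Filter
open scoped Topology Real

/-- Segments of length below four carry a monic polynomial below one. -/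
theorem exists_monic_small_segment {a b : ℝ} (hab : b - a < 4) :
    ∃ p : ℂ[X], p.Monic ∧ 0 < p.natDegree ∧
      ∀ z ∈ (fun x : ℝ => (x : ℂ)) '' Set.Icc a b, ‖p.eval z‖ < 1 := by
  obtain ⟨r, hr1, hr2⟩ := exists_between (max_lt (show (b - a) / 4 < 1 by linarith) one_pos)
  rw [max_lt_iff] at hr1
  obtain ⟨hrab, hr0⟩ := hr1
  obtain ⟨n, hn⟩ := exists_pow_lt_of_lt_one (show (0 : ℝ) < 1 / 2 by norm_num) hr2
  obtain ⟨c, hc⟩ : ∃ c : ℝ, c = (a + b) / 2 := ⟨_, rfl⟩
  refine ⟨(FeketeSzego.scaledCheb c (r ^ 2) (n + 1)).map Complex.ofRealHom,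
    (FeketeSzego.monic_scaledCheb _ _ n.succ_pos).map _, ?_, ?_⟩
  · rw [(FeketeSzego.monic_scaledCheb c (r ^ 2) n.succ_pos).natDegree_map,
      FeketeSzego.natDegree_scaledCheb _ _ n.succ_pos]
    exact n.succ_pos
  rintro z ⟨x, ⟨hxa, hxb⟩, rfl⟩
  have hx : (x - c) / (2 * r) ∈ Set.Icc (-1 : ℝ) 1 := by
    rw [Set.mem_Icc, le_div_iff₀ (by positivity), div_le_iff₀ (by positivity)]
    constructor <;> linarith
  have e : x = c + 2 * r * Real.cos (Real.arccos ((x - c) / (2 * r))) := by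
    rw [Real.cos_arccos hx.1 hx.2]
    field_simp
    ring
  simp only []
  rw [show ((x : ℂ)) = Complex.ofRealHom x from rfl, eval_map_apply, Complex.ofRealHom_eq_coe,
    Complex.norm_real, Real.norm_eq_abs, e, FeketeSzego.eval_scaledCheb_cos, abs_mul,
    abs_mul, abs_two, abs_of_nonneg (pow_nonneg hr0.le _)]
  have h1 := Real.abs_cos_le_one ((n + 1 : ℕ) * Real.arccos ((x - c) / (2 * r)))
  have h2 : r ^ (n + 1) ≤ r ^ n := pow_le_pow_of_le_one hr0.le hr2.le n.le_succ
  have h3 := mul_le_mul_of_nonneg_left h1 (pow_nonneg hr0.le (n + 1))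
  nlinarith

theorem exists_monic_small_disc (c : ℂ) {r : ℝ} (hr : r < 1) :
    ∃ p : ℂ[X], p.Monic ∧ 0 < p.natDegree ∧ ∀ z ∈ Metric.closedBall c r, ‖p.eval z‖ < 1 := by
  refine ⟨X - C c, monic_X_sub_C c, by simp, fun z hz => ?_⟩
  rw [Metric.mem_closedBall, dist_eq_norm] at hz
  simpa using hz.trans_lt hr

/-- The coefficients of `1 / √(z ^ 2 - 4)` at infinity. -/
def centralCoeff (n : ℕ) : ℤ := if Even n then (n / 2).centralBinom else 0

/-- `1 / √(z ^ 2 - 4)`, cut along `[-2, 2]`. -/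
def invSqrtFun (z : ℂ) : ℂ := z⁻¹ * (1 / (1 - 4 / z ^ 2) ^ (1 / 2 : ℂ))

theorem choose_half_mul (n : ℕ) :
    Ring.choose ((1 / 2 : ℂ) + n - 1) n * 4 ^ n = n.centralBinom := by
  rw [← Ring.multichoose_eq]
  refine mul_left_cancel₀ (Nat.cast_ne_zero.2 n.factorial_ne_zero : (n.factorial : ℂ) ≠ 0) ?_
  rw [← mul_assoc, ← nsmul_eq_mul, Ring.factorial_nsmul_multichoose_eq_ascPochhammer]
  induction n with
  | zero => simp [ascPochhammer_zero]
  | succ n ih =>
    have hrec : ((n : ℂ) + 1) * ((n + 1).centralBinom : ℂ) =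
        2 * (2 * n + 1) * (n.centralBinom : ℂ) := by
      exact_mod_cast Nat.succ_mul_centralBinom_succ n
    rw [ascPochhammer_succ_right, Nat.factorial_succ, Nat.cast_mul, Nat.cast_succ,
      Polynomial.smeval_mul, Polynomial.smeval_add, Polynomial.smeval_X, Polynomial.smeval_natCast,
      pow_succ]
    simp only [pow_zero, nsmul_eq_mul, mul_one]
    linear_combination (4 * (1 / 2 + (n : ℂ))) * ih - (n.factorial : ℂ) * hrec

theorem differentiableOn_invSqrtFun :
    DifferentiableOn ℂ invSqrtFun ((fun x : ℝ => (x : ℂ)) '' Set.Icc (-2) 2)ᶜ := by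
  intro z hz
  have hz0 : z ≠ 0 := fun e => hz ⟨0, ⟨by norm_num, by norm_num⟩, by simp [e]⟩
  have hslit : 1 - 4 / z ^ 2 ∈ Complex.slitPlane := by
    rw [Complex.mem_slitPlane_iff]
    by_contra hcon
    push Not at hcon
    obtain ⟨hre, him⟩ := hcon
    obtain ⟨t, ht⟩ : ∃ t, t = (4 / z ^ 2).re := ⟨_, rfl⟩
    rw [Complex.sub_re, Complex.one_re, ← ht] at hre
    rw [Complex.sub_im, Complex.one_im, zero_sub, neg_eq_zero] at him
    have ht1 : 1 ≤ t := by linarith
    have e : z ^ 2 = ((4 / t : ℝ) : ℂ) := by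
      have h : 4 / z ^ 2 = (t : ℂ) := Complex.ext (by simp [ht]) (by simp [him])
      rw [Complex.ofReal_div, ← h, Complex.ofReal_ofNat, div_div_cancel₀ (by norm_num)]
    obtain ⟨q, hq⟩ : ∃ q : ℝ, q = √(4 / t) := ⟨_, rfl⟩
    have hq2 : q ≤ 2 := by
      rw [hq, Real.sqrt_le_iff]
      refine ⟨by norm_num, ?_⟩
      rw [div_le_iff₀ (by linarith)]
      linarith
    have hq0 : 0 ≤ q := hq ▸ Real.sqrt_nonneg _
    have hsq : z ^ 2 = (q : ℂ) ^ 2 := by
      rw [e, ← Complex.ofReal_pow, hq, Real.sq_sqrt (div_nonneg (by norm_num) (by linarith))]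
    rcases sq_eq_sq_iff_eq_or_eq_neg.1 hsq with h | h
    · exact hz ⟨q, ⟨by linarith, hq2⟩, h.symm⟩
    · exact hz ⟨-q, ⟨by linarith, by linarith⟩, by simp [h]⟩
  refine DifferentiableAt.differentiableWithinAt ?_
  have hd : DifferentiableAt ℂ (fun w : ℂ => 1 - 4 / w ^ 2) z :=
    (differentiableAt_const _).sub ((differentiableAt_const _).div
      (by fun_prop) (pow_ne_zero 2 hz0))
  exact (differentiableAt_id.inv hz0).mul ((differentiableAt_const _).div
    (hd.cpow_const hslit) (by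
      simp [Complex.cpow_eq_zero_iff, Complex.slitPlane_ne_zero hslit]))

theorem hasSum_invSqrtFun {z : ℂ} (hz : 2 < ‖z‖) :
    HasSum (fun n => (centralCoeff n : ℂ) / z ^ (n + 1)) (invSqrtFun z) := by
  have hz0 : z ≠ 0 := norm_pos_iff.1 (by linarith)
  have hw : ‖4 / z ^ 2‖ < 1 := by
    rw [norm_div, norm_pow, div_lt_one (by positivity), Complex.norm_ofNat]
    nlinarith
  have h := (Complex.one_div_one_sub_cpow_hasFPowerSeriesOnBall_zero (1 / 2)).hasSum
    (y := 4 / z ^ 2) (by simpa [Metric.mem_eball, ← ofReal_norm] using hw)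
  simp only [zero_add, FormalMultilinearSeries.ofScalars_apply_eq, smul_eq_mul] at h
  refine (Function.Injective.hasSum_iff (g := fun n => 2 * n) (fun _ _ => by simp)
    fun m hm => ?_).1 ((h.mul_left z⁻¹).congr_fun fun n => ?_)
  · have hodd : ¬Even m := fun ⟨j, hj⟩ => hm ⟨j, by simp only; omega⟩
    simp [centralCoeff, hodd]
  · have hc := choose_half_mul n
    simp only [Function.comp_apply, centralCoeff, even_two_mul, if_true,
      Nat.mul_div_cancel_left n two_pos, Int.cast_natCast, ← hc]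
    rw [div_pow, ← pow_mul, pow_succ']
    field_simp

/-- A relation `f Q = P` near infinity annihilates the moments. -/
theorem moment_mul_eq_zero {a : ℕ → ℂ} {f : ℂ → ℂ} {R₀ R : ℝ}
    (hser : ∀ z : ℂ, R₀ < ‖z‖ → HasSum (fun n => a n / z ^ (n + 1)) (f z)) {P Q : ℂ[X]}
    (h : ∀ z : ℂ, R < ‖z‖ → f z * Q.eval z = P.eval z) (i : ℕ) :
    moment a (Q * X ^ i) = 0 := by
  obtain ⟨X₀, hX₀⟩ : ∃ X₀ : ℝ, X₀ = Real.log (max (max R₀ R) 1 + 1) := ⟨_, rfl⟩
  have he : Real.exp X₀ = max (max R₀ R) 1 + 1 := by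
    rw [hX₀, Real.exp_log (by linarith [le_max_right (max R₀ R) 1])]
  have h1 := (integral_circle_eq_moment hser (X := X₀)
    (by linarith [le_max_left (max R₀ R) 1, le_max_left R₀ R]) (Q * X ^ i)).2
  have h2 : ∀ G : ℂ[X], ∫ y in (0 : ℝ)..2 * π,
      G.eval (Complex.exp (X₀ + y * Complex.I)) * Complex.exp (X₀ + y * Complex.I) = 0 := by
    intro G
    induction G using Polynomial.induction_on' with
    | add G H hG hH =>
      simp only [eval_add, add_mul]
      rw [intervalIntegral.integral_add, hG, hH, add_zero] <;>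
        exact Continuous.intervalIntegrable (by fun_prop) _ _
    | monomial m c =>
      have e : ∀ y : ℝ, (monomial m c).eval (Complex.exp (X₀ + y * Complex.I)) *
          Complex.exp (X₀ + y * Complex.I) =
            c * Complex.exp ((((m + 1 : ℕ) : ℤ) : ℂ) * (X₀ + y * Complex.I)) := fun y => by
        rw [eval_monomial, Int.cast_natCast, Complex.exp_nat_mul, pow_succ, mul_assoc]
      simp only [e, intervalIntegral.integral_const_mul, integral_cexp_int]
      rw [if_neg (by omega), Complex.ofReal_zero, mul_zero]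
  have h3 : ∀ y : ℝ, f (Complex.exp (X₀ + y * Complex.I)) *
      (Q * X ^ i).eval (Complex.exp (X₀ + y * Complex.I)) =
        (P * X ^ i).eval (Complex.exp (X₀ + y * Complex.I)) := fun y => by
    rw [eval_mul, eval_mul, ← mul_assoc, h _ (by
      rw [Complex.norm_exp]
      simpa using (show R < Real.exp X₀ by
        linarith [le_max_left (max R₀ R) 1, le_max_right R₀ R]))]
  simp only [h3, h2] at h1
  simpa [Real.pi_ne_zero] using h1.symm

theorem invSqrtFun_irrational {P Q : ℂ[X]} (hQ : Q ≠ 0) (R : ℝ) :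
    ∃ z : ℂ, R < ‖z‖ ∧ invSqrtFun z * Q.eval z ≠ P.eval z := by
  by_contra hcon
  push Not at hcon
  have hid : Q ^ 2 = P ^ 2 * (X ^ 2 - C 4) := by
    refine eq_of_infinite_eval_eq _ _ (Set.infinite_of_injective_forall_mem
      (f := fun n : ℕ => (((max R 2 + 1 + n : ℝ)) : ℂ)) (fun m n h => ?_) fun n => ?_)
    · simpa using h
    · obtain ⟨z, hz⟩ : ∃ z : ℂ, z = ((max R 2 + 1 + n : ℝ) : ℂ) := ⟨_, rfl⟩
      have hn : max R 2 < ‖z‖ := by
        rw [hz, Complex.norm_real]
        refine lt_of_lt_of_le ?_ (le_abs_self _)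
        have : (0 : ℝ) ≤ n := Nat.cast_nonneg n
        linarith
      rw [max_lt_iff] at hn
      have hz0 : z ≠ 0 := norm_pos_iff.1 (by linarith)
      have hne : 1 - 4 / z ^ 2 ≠ 0 := fun e => by
        have h := congrArg norm (sub_eq_zero.1 e)
        rw [norm_one, norm_div, Complex.norm_ofNat, norm_pow, eq_div_iff (by positivity)] at h
        nlinarith
      have hs : ((1 - 4 / z ^ 2) ^ (1 / 2 : ℂ)) ^ 2 = 1 - 4 / z ^ 2 := by
        simp [one_div]
      have h4 : (z ^ 2 - 4) = z ^ 2 * (1 - 4 / z ^ 2) := by field_simp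
      simp only [Set.mem_ofPred_eq, eval_pow, eval_mul, eval_sub, eval_X, eval_C, ← hz]
      rw [← hcon z hn.1, invSqrtFun, h4]
      generalize (1 - 4 / z ^ 2) ^ (1 / 2 : ℂ) = s at hs
      have hs0 : s ≠ 0 := fun e => hne (by rw [← hs, e]; ring)
      rw [← hs]
      field_simp
  have hne4 : (X ^ 2 - C 4 : ℂ[X]) ≠ 0 := X_pow_sub_C_ne_zero two_pos 4
  have hP : P ≠ 0 := fun e => hQ (by simpa [e] using hid)
  have h := congrArg (rootMultiplicity (2 : ℂ)) hid
  rw [show (X ^ 2 - C 4 : ℂ[X]) = (X - C 2) * (X - C (-2)) by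
      rw [show (C (4 : ℂ)) = C 2 * C 2 by rw [← C_mul]; norm_num, C_neg]; ring] at h hne4
  rw [sq, sq, rootMultiplicity_mul (mul_ne_zero hQ hQ),
    rootMultiplicity_mul (mul_ne_zero (mul_ne_zero hP hP) hne4), rootMultiplicity_mul
      (mul_ne_zero hP hP), rootMultiplicity_mul hne4, rootMultiplicity_X_sub_C,
    rootMultiplicity_X_sub_C, if_pos rfl, if_neg (by norm_num)] at h
  omega

/-- The coefficients of `∑ z ^ (-2 ^ j)`. -/
def lacunaryCoeff (n : ℕ) : ℤ := if n + 1 = 2 ^ Nat.log 2 (n + 1) then 1 else 0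

theorem norm_lacunaryCoeff_le (n : ℕ) : ‖(lacunaryCoeff n : ℂ)‖ ≤ 1 := by
  rw [lacunaryCoeff]
  split_ifs <;> simp

/-- `∑ z ^ (-2 ^ j)`. -/
def lacunaryFun (z : ℂ) : ℂ := ∑' n : ℕ, (lacunaryCoeff n : ℂ) / z ^ (n + 1)

theorem hasSum_lacunaryFun {z : ℂ} (hz : 1 < ‖z‖) :
    HasSum (fun n => (lacunaryCoeff n : ℂ) / z ^ (n + 1)) (lacunaryFun z) := by
  refine (Summable.of_norm_bounded (g := fun n => (‖z‖⁻¹) ^ (n + 1)) ?_ fun n => ?_).hasSum
  · exact (summable_nat_add_iff 1).2
      (summable_geometric_of_lt_one (by positivity) (inv_lt_one_of_one_lt₀ hz))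
  · rw [norm_div, norm_pow, inv_pow, div_eq_mul_inv]
    exact mul_le_of_le_one_left (by positivity) (norm_lacunaryCoeff_le n)

theorem differentiableOn_lacunaryFun :
    DifferentiableOn ℂ lacunaryFun (Metric.closedBall (0 : ℂ) 1)ᶜ := by
  intro z hz
  have hz1 : 1 < ‖z‖ := by simpa using hz
  obtain ⟨r, hr1, hr2⟩ := exists_between hz1
  refine (DifferentiableOn.differentiableAt ?_
    ((isOpen_lt continuous_const continuous_norm).mem_nhds hr2)).differentiableWithinAt
  refine Complex.differentiableOn_tsum_of_summable_norm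
    (u := fun n : ℕ => r⁻¹ ^ (n + 1)) ((summable_nat_add_iff 1).2
      (summable_geometric_of_lt_one (by positivity) (inv_lt_one_of_one_lt₀ hr1)))
    (fun n w hw => ?_) (isOpen_lt continuous_const continuous_norm) fun n w hw => ?_
  · have hw0 : w ≠ 0 := norm_pos_iff.1 (by linarith [show r < ‖w‖ from hw])
    exact ((differentiableAt_const _).div
      (by fun_prop : DifferentiableAt ℂ (fun y : ℂ => y ^ (n + 1)) w)
      (pow_ne_zero _ hw0)).differentiableWithinAt
  · rw [norm_div, norm_pow, inv_pow, div_eq_mul_inv]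
    refine (mul_le_of_le_one_left (by positivity) (norm_lacunaryCoeff_le n)).trans ?_
    have hw' : r < ‖w‖ := hw
    gcongr

theorem lacunaryFun_irrational {P Q : ℂ[X]} (hQ : Q ≠ 0) (R : ℝ) :
    ∃ z : ℂ, R < ‖z‖ ∧ lacunaryFun z * Q.eval z ≠ P.eval z := by
  by_contra hcon
  push Not at hcon
  obtain ⟨d, hd⟩ : ∃ d, d = Q.natDegree := ⟨_, rfl⟩
  obtain ⟨N, hN⟩ : ∃ N : ℕ, d < 2 ^ N := ⟨d, Nat.lt_two_pow_self⟩
  have hpow : 2 ^ (N + 1) = 2 ^ N + 2 ^ N := by rw [pow_succ]; ring
  have h := moment_mul_eq_zero (R₀ := 1) (fun z hz => hasSum_lacunaryFun hz) hcon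
    (2 ^ (N + 1) - 1 - d)
  have hdeg : (Q * X ^ (2 ^ (N + 1) - 1 - d)).natDegree < 2 ^ (N + 1) := by
    rw [natDegree_mul hQ (pow_ne_zero _ X_ne_zero), natDegree_X_pow, ← hd]
    omega
  rw [moment_eq_sum _ hdeg, Finset.sum_eq_single (2 ^ (N + 1) - 1)] at h
  · have hl : lacunaryCoeff (2 ^ (N + 1) - 1) = 1 := by
      rw [lacunaryCoeff, show 2 ^ (N + 1) - 1 + 1 = 2 ^ (N + 1) by omega,
        Nat.log_pow one_lt_two, if_pos rfl]
    rw [hl, Int.cast_one, mul_one, coeff_mul_X_pow', if_pos (by omega),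
      show 2 ^ (N + 1) - 1 - (2 ^ (N + 1) - 1 - d) = Q.natDegree by omega] at h
    exact hQ (leadingCoeff_eq_zero.1 h)
  · intro n hn hne
    rw [Finset.mem_range] at hn
    rw [coeff_mul_X_pow']
    split_ifs with hle
    · have hl : lacunaryCoeff n = 0 := by
        rw [lacunaryCoeff, if_neg]
        intro heq
        obtain ⟨l, hl⟩ : ∃ l, l = Nat.log 2 (n + 1) := ⟨_, rfl⟩
        rw [← hl] at heq
        have h1 : 2 ^ N < 2 ^ l := by omega
        have h2 : 2 ^ l < 2 ^ (N + 1) := by omega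
        rw [Nat.pow_lt_pow_iff_right one_lt_two] at h1 h2
        omega
      rw [hl, Int.cast_zero, mul_zero]
    · exact zero_mul _
  · intro hn
    exact absurd (Finset.mem_range.2 (by omega)) hn

end FA.PolyaRationality
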